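import Fermat.Agent.AutTower.Subnormal

/-!
# Components and the generalised Fitting subgroup

A component lies in or centralises every subnormal subgroup, and the generalised Fitting subgroup
contains its centraliser.
-/

set_option autoImplicit false
set_option linter.style.haveILetI false

noncomputable section

open Subgroup
open scoped commutatorElement

namespace FA.AutTower

variable {G : Type*} [Group G]

/-- A component: subnormal, perfect, and with every proper normal subgroup central. -/
structure IsComponent (K : Subgroup G) : Prop where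
  subnormal : K.IsSubnormal
  ne_bot : K ≠ ⊥
  perfect : ⁅K, K⁆ = K
  central : ∀ N ≤ K, K ≤ normalizer (N : Set G) → N ≠ K → N ≤ centralizer (K : Set G)

/-- **A component lies in or centralises every subnormal subgroup.** -/
theorem IsComponent.le_or_commute {K : Subgroup G} (hK : IsComponent K) {U : Subgroup G}
    (hU : U.IsSubnormal) : K ≤ U ∨ ⁅U, K⁆ = ⊥ := by
  induction hU with
  | top => exact Or.inl le_top
  | step U V hle _ hN ih =>
    rcases ih with hKV | hKV
    swap
    · exact Or.inr (le_bot_iff.1 (hKV ▸ commutator_mono hle le_rfl))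
    rw [normal_subgroupOf_iff_le_normalizer hle] at hN
    by_cases hKU : K ≤ U
    · exact Or.inl hKU
    refine Or.inr ?_
    obtain ⟨n, f, hmono, hnorm, hf0, hfn⟩ := hK.subnormal.exists_chain
    suffices key : ∀ i, ⁅U ⊓ f i, K⁆ = ⊥ by
      simpa [hfn] using key n
    intro i
    induction i with
    | zero =>
      rw [hf0, commutator_eq_bot_iff_le_centralizer]
      refine hK.central _ inf_le_right (le_normalizer_of_conj_mem fun k hk x hx => ?_)
        fun h => hKU (h ▸ inf_le_left)
      exact ⟨conj_mem_of_le_normalizer hN (hKV hk) hx.1, K.mul_mem (K.mul_mem hk hx.2) (K.inv_mem hk)⟩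
    | succ i ihi =>
      have hKi : K ≤ f i := hf0 ▸ hmono (Nat.zero_le i)
      have hfi := (normal_subgroupOf_iff_le_normalizer (hmono (Nat.le_succ i))).1 (hnorm i)
      have hle' : ⁅U ⊓ f (i + 1), K⁆ ≤ U ⊓ f i := commutator_le.2 fun a ha k hk => by
        rw [commutatorElement_def]
        refine ⟨?_, (f i).mul_mem (conj_mem_of_le_normalizer hfi ha.2 (hKi hk)) ((f i).inv_mem (hKi hk))⟩
        have e : a * k * a⁻¹ * k⁻¹ = a * (k * a⁻¹ * k⁻¹) := by group
        rw [e]
        exact mul_mem ha.1 (conj_mem_of_le_normalizer hN (hKV hk) (inv_mem ha.1))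
      have h1 : ⁅⁅U ⊓ f (i + 1), K⁆, K⁆ = ⊥ := le_bot_iff.1 (ihi ▸ commutator_mono hle' le_rfl)
      have h2 : ⁅⁅K, K⁆, U ⊓ f (i + 1)⁆ = ⊥ :=
        commutator_commutator_eq_bot_of_rotate (by rwa [commutator_comm K]) h1
      rwa [hK.perfect, commutator_comm] at h2

/-- Distinct components commute. -/
theorem IsComponent.commute {K L : Subgroup G} (hK : IsComponent K) (hL : IsComponent L)
    (hne : K ≠ L) : ⁅K, L⁆ = ⊥ := by
  rcases hK.le_or_commute hL.subnormal with h | h
  · rcases hL.le_or_commute hK.subnormal with h' | h'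
    · exact absurd (le_antisymm h h') hne
    · exact h'
  · rwa [commutator_comm]

/-- The image of a component under an automorphism is one. -/
theorem IsComponent.map {K : Subgroup G} (hK : IsComponent K) (e : G ≃* G) :
    IsComponent (K.map e.toMonoidHom) where
  subnormal := hK.subnormal.map e.surjective
  ne_bot := fun h => hK.ne_bot ((map_eq_bot_iff_of_injective K e.injective).1 h)
  perfect := by rw [← map_commutator, hK.perfect]
  central := fun N hN hn hne => by
    set M := N.comap e.toMonoidHom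
    have hNM : N = M.map e.toMonoidHom := (map_comap_eq_self_of_surjective e.surjective N).symm
    have hM : M ≤ K := by
      rw [← comap_map_eq_self_of_injective (f := e.toMonoidHom) e.injective K]
      exact comap_mono hN
    have hc := hK.central M hM (le_normalizer_of_conj_mem fun k hk x hx => by
      show e (k * x * k⁻¹) ∈ N
      rw [map_mul, map_mul, map_inv]
      exact conj_mem_of_le_normalizer hn (mem_map_of_mem e.toMonoidHom hk) hx)
      fun h => hne (by rw [hNM, h])
    rw [hNM]
    rintro - ⟨x, hx, rfl⟩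
    rintro - ⟨k, hk, rfl⟩
    rw [← map_mul, ← map_mul, hc hx k hk]

/-- Components are the subnormal quasisimple subgroups. -/
theorem isComponent_iff {K : Subgroup G} : IsComponent K ↔
    K.IsSubnormal ∧ ⁅K, K⁆ = K ∧ IsSimpleGroup (K ⧸ center K) := by
  have hperfK : ⁅K, K⁆ = K → ∀ A : Subgroup K, A.Normal → A ⊔ center K = ⊤ → A = ⊤ := by
    intro hperf A hA hsup
    refine eq_top_iff.2 fun x _ => ?_
    have hx : (x : G) ∈ ⁅K, K⁆ := hperf.symm ▸ x.2
    have hle : ⁅K, K⁆ ≤ A.map K.subtype := commutator_le.2 fun a ha b hb => by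
      have hab : ∀ y : K, ∃ a ∈ A, ∃ z ∈ center K, a * z = y := fun y =>
        mem_sup_of_normal_right.1 (hsup ▸ mem_top y : y ∈ A ⊔ center K)
      obtain ⟨a₁, ha₁, z₁, hz₁, e₁⟩ := hab ⟨a, ha⟩
      obtain ⟨a₂, ha₂, z₂, hz₂, e₂⟩ := hab ⟨b, hb⟩
      refine ⟨⁅a₁ * z₁, a₂ * z₂⁆, ?_, by rw [e₁, e₂]; rfl⟩
      have h1 := mem_center_iff.1 hz₁
      have h2 := mem_center_iff.1 hz₂
      have e : ⁅a₁ * z₁, a₂ * z₂⁆ = ⁅a₁, a₂⁆ := by
        simp only [commutatorElement_def]
        calc a₁ * z₁ * (a₂ * z₂) * (a₁ * z₁)⁻¹ * (a₂ * z₂)⁻¹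
            = a₁ * (a₂ * z₁) * z₂ * (z₁⁻¹ * a₁⁻¹) * (z₂⁻¹ * a₂⁻¹) := by rw [h1 a₂]; group
          _ = a₁ * a₂ * (z₁ * z₂ * (z₁⁻¹ * a₁⁻¹)) * (z₂⁻¹ * a₂⁻¹) := by group
          _ = a₁ * a₂ * (z₂ * a₁⁻¹) * (z₂⁻¹ * a₂⁻¹) := by
            rw [h2 z₁]
            group
          _ = a₁ * a₂ * a₁⁻¹ * a₂⁻¹ := by
            rw [← h2 a₁⁻¹]
            group
      rw [e]
      exact A.mul_mem (A.mul_mem (A.mul_mem ha₁ ha₂) (A.inv_mem ha₁)) (A.inv_mem ha₂)
    obtain ⟨y, hy, hyx⟩ := hle hx
    obtain rfl : y = x := Subtype.ext hyx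
    exact hy
  constructor
  · intro h
    refine ⟨h.subnormal, h.perfect, ?_⟩
    haveI : Nontrivial (K ⧸ center K) := QuotientGroup.nontrivial_iff.2 fun htop => h.ne_bot (by
      rw [← h.perfect, commutator_eq_bot_iff_le_centralizer]
      intro x hx y hy
      have hc : (⟨x, hx⟩ : K) ∈ center K := htop ▸ mem_top _
      exact congrArg Subtype.val (mem_center_iff.1 hc ⟨y, hy⟩))
    refine ⟨fun N hN => ?_⟩
    set A := N.comap (QuotientGroup.mk' (center K))
    have hNA : N = A.map (QuotientGroup.mk' (center K)) :=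
      (map_comap_eq_self_of_surjective (QuotientGroup.mk'_surjective _) N).symm
    by_cases hA : A = ⊤
    · exact Or.inr (by rw [hNA, hA, map_top_of_surjective _ (QuotientGroup.mk'_surjective _)])
    refine Or.inl ?_
    have hAn : K ≤ normalizer ((A.map K.subtype : Subgroup G) : Set G) :=
      le_normalizer_of_conj_mem fun k hk x ⟨a, ha, hax⟩ =>
        ⟨⟨k, hk⟩ * a * ⟨k, hk⟩⁻¹, (inferInstance : A.Normal).conj_mem a ha _, by rw [← hax]; rfl⟩
    have hle := h.central _ (map_subtype_le A) hAn fun e => hA (map_injective K.subtype_injective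
      (e.trans (by rw [← MonoidHom.range_eq_map, range_subtype])))
    rw [hNA, Subgroup.map_eq_bot_iff, QuotientGroup.ker_mk']
    intro x hx
    exact mem_center_iff.2 fun y =>
      Subtype.ext (hle (mem_map_of_mem K.subtype hx) y y.2)
  · rintro ⟨hsn, hperf, hsimple⟩
    refine ⟨hsn, fun hbot => ?_, hperf, fun N hN hn hne => ?_⟩
    · subst hbot
      haveI := hsimple.toNontrivial
      exact not_subsingleton ((⊥ : Subgroup G) ⧸ center (⊥ : Subgroup G))
        (QuotientGroup.mk'_surjective _).subsingleton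
    · haveI hA : (N.subgroupOf K).Normal := (normal_subgroupOf_iff_le_normalizer hN).2 hn
      rcases hsimple.eq_bot_or_eq_top_of_normal
        ((N.subgroupOf K).map (QuotientGroup.mk' (center K)))
        (hA.map _ (QuotientGroup.mk'_surjective _)) with h | h
      · rw [Subgroup.map_eq_bot_iff, QuotientGroup.ker_mk'] at h
        intro x hx k hk
        exact congrArg Subtype.val
          (mem_center_iff.1 (h (show (⟨x, hN hx⟩ : K) ∈ N.subgroupOf K from hx)) ⟨k, hk⟩)
      · refine absurd ?_ hne
        refine le_antisymm hN ?_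
        rw [← subgroupOf_eq_top]
        refine hperfK hperf _ hA ?_
        have e := congrArg (comap (QuotientGroup.mk' (center K))) h
        rwa [comap_map_eq, QuotientGroup.ker_mk', comap_top] at e

/-- The generalised Fitting subgroup. -/
def fStar (G : Type*) [Group G] : Subgroup G :=
  (⨆ (p : ℕ) (_ : p.Prime), pCore p G) ⊔ ⨆ (K : Subgroup G) (_ : IsComponent K), K

instance fStar_normal : (fStar G).Normal := by
  have h1 : (⨆ (p : ℕ) (_ : p.Prime), pCore p G).Normal := ⟨fun x hx g => by
    have hle : (⨆ (p : ℕ) (_ : p.Prime), pCore p G) ≤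
        (⨆ (p : ℕ) (_ : p.Prime), pCore p G).comap (MulAut.conj g).toMonoidHom :=
      iSup₂_le fun p hp y hy =>
        mem_iSup_of_mem p (mem_iSup_of_mem hp ((pCore_normal p).conj_mem y hy g))
    exact hle hx⟩
  have h2 : (⨆ (K : Subgroup G) (_ : IsComponent K), K).Normal := ⟨fun x hx g => by
    have hle : (⨆ (K : Subgroup G) (_ : IsComponent K), K) ≤
        (⨆ (K : Subgroup G) (_ : IsComponent K), K).comap (MulAut.conj g).toMonoidHom :=
      iSup₂_le fun K hK => map_le_iff_le_comap.1
        (le_iSup₂_of_le (K.map (MulAut.conj g).toMonoidHom) (hK.map _) le_rfl)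
    exact hle hx⟩
  rw [fStar]
  infer_instance

theorem component_le_fStar {K : Subgroup G} (hK : IsComponent K) : K ≤ fStar G :=
  le_sup_of_le_right (le_iSup₂_of_le K hK le_rfl)

theorem pCore_le_fStar {p : ℕ} (hp : p.Prime) : pCore p G ≤ fStar G :=
  le_sup_of_le_left (le_iSup₂_of_le p hp le_rfl)

variable [Finite G]

theorem le_fStar_of_isPGroup {p : ℕ} [hp : Fact p.Prime] {Q : Subgroup G} (hQ : Q.IsSubnormal)
    (h : IsPGroup p Q) : Q ≤ fStar G :=
  (le_pCore hQ h).trans (pCore_le_fStar hp.out)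

/-- Subnormal nilpotent subgroups lie in it. -/
theorem le_fStar_of_isNilpotent {K : Subgroup G} (hK : K.IsSubnormal) [Group.IsNilpotent K] :
    K ≤ fStar G := by
  rw [← subgroupOf_eq_top]
  refine index_eq_one.1 (Nat.eq_one_iff_not_exists_prime_dvd.2 fun p hp hdvd => ?_)
  haveI := Fact.mk hp
  obtain ⟨P⟩ := (inferInstance : Nonempty (Sylow p K))
  refine P.not_dvd_index (hdvd.trans (index_dvd_of_le ?_))
  rw [subgroupOf, ← map_le_iff_le_comap]
  exact le_fStar_of_isPGroup ((inferInstance : P.Normal).isSubnormal.trans' hK)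
    (P.isPGroup'.map K.subtype)

/-- **Bender's theorem**: the generalised Fitting subgroup contains its centraliser. -/
theorem centralizer_fStar_le : centralizer (fStar G : Set G) ≤ fStar G := by
  set F := fStar G
  set C := centralizer (F : Set G)
  by_contra hC
  haveI : C.Normal := inferInstance
  obtain ⟨K, ⟨hKsn, hKC, hKF⟩, hmin⟩ := Set.Finite.exists_minimal
    (Set.toFinite {K : Subgroup G | K.IsSubnormal ∧ K ≤ C ∧ ¬ K ≤ F})
    ⟨C, (inferInstance : C.Normal).isSubnormal, le_rfl, hC⟩
  have small : ∀ N ≤ K, K ≤ normalizer (N : Set G) → N ≠ K →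
      N ≤ F ∧ N ≤ centralizer (K : Set G) := by
    intro N hN hn hne
    have hNF : N ≤ F := by
      by_contra hNF
      exact hne (le_antisymm hN (hmin ⟨IsSubnormal.step N K hN hKsn
        ((normal_subgroupOf_iff_le_normalizer hN).2 hn), hN.trans hKC, hNF⟩ hN))
    exact ⟨hNF, fun x hx k hk => ((hKC hk) x (hNF hx)).symm⟩
  by_cases hperf : ⁅K, K⁆ = K
  · exact hKF (component_le_fStar ⟨hKsn, fun h => hKF (h ▸ bot_le), hperf,
      fun N hN hn hne => (small N hN hn hne).2⟩)
  · have hc := (small ⁅K, K⁆ (commutator_le_self K)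
      (normalizer_commutator_ge_right K K) hperf).2
    haveI : Group.IsNilpotent K := (isNilpotent_iff_lowerCentralSeries K).2 ⟨2, by
      show ⁅⁅K, K⁆, K⁆ = ⊥
      exact commutator_eq_bot_iff_le_centralizer.2 hc⟩
    exact hKF (le_fStar_of_isNilpotent hKsn)

end FA.AutTower

end
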