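import Fermat.Agent.AutTower.Fitting
import Mathlib.Data.Finite.Perm

/-!
# Schenkman's theorem and Wielandt's bound

If a subnormal subgroup has trivial centraliser then so, up to its centre, has its nilpotent
residual, and the generalised Fitting subgroup normalises that residual.
-/

set_option autoImplicit false
set_option linter.style.haveILetI false

noncomputable section

open Subgroup
open scoped commutatorElement

namespace FA.AutTower

variable {G : Type*} [Group G] [Finite G]

/-- A nilpotent action without fixed points has no trivial quotient. -/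
theorem le_of_no_fixedPoints {S : Subgroup G} {n : ℕ} (W : Subgroup G) :
    (∀ a ∈ W, ∀ b ∈ W, a * b = b * a) → S ≤ normalizer (W : Set G) →
    S.lowerCentralSeries n ≤ centralizer (W : Set G) → W ⊓ centralizer (S : Set G) = ⊥ →
    ∀ U ≤ W, S ≤ normalizer (U : Set G) → (∀ s ∈ S, ∀ w ∈ W, s * w * s⁻¹ * w⁻¹ ∈ U) → W ≤ U := by
  induction W using WellFoundedLT.induction with
  | _ W ih =>
    intro hcomm hW hn hfix U hUW hU htriv
    by_cases hS : S ≤ centralizer (W : Set G)
    · rw [le_centralizer_iff] at hS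
      rw [inf_eq_left.2 hS] at hfix
      exact hfix ▸ bot_le
    obtain ⟨k, hk, hk1⟩ : ∃ k, ¬ S.lowerCentralSeries k ≤ centralizer (W : Set G) ∧
        S.lowerCentralSeries (k + 1) ≤ centralizer (W : Set G) := by
      by_contra h
      push Not at h
      exact Nat.rec (motive := fun k => ¬ S.lowerCentralSeries k ≤ centralizer (W : Set G))
        hS h n hn
    obtain ⟨z, hz, hzW⟩ := SetLike.not_le_iff_exists.1 hk
    have hzS : z ∈ S := lowerCentralSeries_le_self S k hz
    -- the map `w ↦ z w z⁻¹ w⁻¹`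
    let f : W →* G :=
      { toFun := fun w => z * w * z⁻¹ * (w : G)⁻¹
        map_one' := by simp
        map_mul' := fun a b => by
          have hzb : z * b * z⁻¹ ∈ W := conj_mem_of_le_normalizer hW hzS b.2
          have hza : z * a * z⁻¹ ∈ W := conj_mem_of_le_normalizer hW hzS a.2
          have e : z * (↑(a * b) : G) * z⁻¹ * (↑(a * b) : G)⁻¹ =
              (z * a * z⁻¹) * ((z * b * z⁻¹ * (b : G)⁻¹) * (a : G)⁻¹) := by
            push_cast
            group
          rw [e, hcomm _ (mul_mem hzb (inv_mem b.2)) _ (inv_mem a.2)]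
          group }
    have hfU : f.range ≤ U := by
      rintro - ⟨w, rfl⟩
      exact htriv z hzS w w.2
    -- equivariance
    have heq : ∀ s ∈ S, ∀ w : W, ∀ hw : s * (w : G) * s⁻¹ ∈ W,
        f ⟨s * w * s⁻¹, hw⟩ = s * f w * s⁻¹ := by
      intro s hs w hw
      have hc : ⁅z⁻¹, s⁻¹⁆ ∈ centralizer (W : Set G) :=
        hk1 (commutator_mem_commutator (inv_mem hz) (inv_mem hs))
      have h2 := hc (w : G) w.2
      show z * (s * w * s⁻¹) * z⁻¹ * (s * w * s⁻¹)⁻¹ = s * (z * w * z⁻¹ * (w : G)⁻¹) * s⁻¹
      calc z * (s * w * s⁻¹) * z⁻¹ * (s * w * s⁻¹)⁻¹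
          = s * z * (⁅z⁻¹, s⁻¹⁆ * w) * (⁅z⁻¹, s⁻¹⁆)⁻¹ * z⁻¹ * (w : G)⁻¹ * s⁻¹ := by
            simp only [commutatorElement_def]
            group
        _ = s * (z * w * z⁻¹ * (w : G)⁻¹) * s⁻¹ := by
            rw [← h2]
            group
    have hnorm : ∀ V : Subgroup W, (∀ s ∈ S, ∀ w ∈ V, ∀ hw : s * (w : G) * s⁻¹ ∈ W,
        (⟨s * w * s⁻¹, hw⟩ : W) ∈ V) → S ≤ normalizer (V.map f : Set G) := by
      refine fun V hV => le_normalizer_of_conj_mem ?_
      rintro s hs - ⟨w, hw, rfl⟩
      have hw' := conj_mem_of_le_normalizer hW hs w.2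
      exact ⟨_, hV s hs w hw hw', heq s hs w hw'⟩
    rcases eq_or_lt_of_le (hfU.trans hUW) with h | hlt
    · exact h ▸ hfU
    -- the image
    have himage : f.range ≤ (U.subgroupOf W).map f := by
      refine ih f.range hlt (fun a ha b hb => hcomm a (hUW (hfU ha)) b (hUW (hfU hb))) ?_
        (hn.trans (centralizer_le (hfU.trans hUW))) ?_ _ (map_le_range _ _) ?_ ?_
      · rw [MonoidHom.range_eq_map]
        exact hnorm ⊤ fun _ _ _ _ _ => mem_top _
      · exact le_bot_iff.1 (hfix ▸ inf_le_inf_right _ (hfU.trans hUW))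
      · exact hnorm _ fun s hs w hw _ => conj_mem_of_le_normalizer hU hs hw
      · rintro s hs - ⟨w, rfl⟩
        have hw := conj_mem_of_le_normalizer hW hs w.2
        refine ⟨(⟨s * w * s⁻¹, hw⟩ : W) * w⁻¹, htriv s hs w w.2, ?_⟩
        rw [map_mul, map_inv, heq s hs w hw]
    -- the kernel
    set W₀ := W ⊓ centralizer ({z} : Set G)
    have hW₀lt : W₀ < W := lt_of_le_of_ne inf_le_left fun h => hzW fun w hw =>
      ((h.ge hw).2 z rfl).symm
    have hW₀n : S ≤ normalizer (W₀ : Set G) := le_normalizer_of_conj_mem fun s hs w hw => by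
      have hw' := conj_mem_of_le_normalizer hW hs hw.1
      refine ⟨hw', ?_⟩
      have h0 : f ⟨w, hw.1⟩ = 1 := by
        show z * w * z⁻¹ * w⁻¹ = 1
        rw [hw.2 z rfl]
        group
      have h1 := heq s hs ⟨w, hw.1⟩ hw'
      rw [h0] at h1
      intro y hy
      rw [Set.mem_singleton_iff.1 hy]
      have h3 : z * (s * w * s⁻¹) * z⁻¹ * (s * w * s⁻¹)⁻¹ = 1 := h1.trans (by group)
      exact mul_inv_eq_iff_eq_mul.1 (mul_inv_eq_one.1 h3)
    have hW₀ : W₀ ≤ U ⊓ W₀ := ih W₀ hW₀lt (fun a ha b hb => hcomm a ha.1 b hb.1) hW₀n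
      (hn.trans (centralizer_le inf_le_left))
      (le_bot_iff.1 (hfix ▸ inf_le_inf_right _ inf_le_left)) _ inf_le_right
      (le_normalizer_of_conj_mem fun s hs w hw =>
        ⟨conj_mem_of_le_normalizer hU hs hw.1, conj_mem_of_le_normalizer hW₀n hs hw.2⟩)
      fun s hs w hw => ⟨htriv s hs w hw.1,
        W₀.mul_mem (conj_mem_of_le_normalizer hW₀n hs hw) (W₀.inv_mem hw)⟩
    intro w hw
    obtain ⟨u, hu, he⟩ := himage ⟨⟨w, hw⟩, rfl⟩
    have h1 : f (u⁻¹ * ⟨w, hw⟩) = 1 := by rw [map_mul, map_inv, he, inv_mul_cancel]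
    have h0 : ((u⁻¹ * ⟨w, hw⟩ : W) : G) ∈ W₀ := by
      refine ⟨(u⁻¹ * ⟨w, hw⟩ : W).2, ?_⟩
      intro y hy
      rw [Set.mem_singleton_iff.1 hy]
      exact mul_inv_eq_iff_eq_mul.1 (mul_inv_eq_one.1 h1)
    have := U.mul_mem (show (u : G) ∈ U from hu) (hW₀ h0).1
    simpa using this

/-- The form used for centralisers of residuals. -/
theorem le_residual_of_commutator {S C : Subgroup G} (hSC : centralizer (S : Set G) = ⊥)
    (hC : C ≤ centralizer (residual S : Set G)) (hn : S ≤ normalizer (C : Set G))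
    (h : ∀ s ∈ S, ∀ c ∈ C, s * c * s⁻¹ * c⁻¹ ∈ residual S) : C ≤ residual S := by
  have h1 : ⁅⁅S, C⁆, C⁆ = ⊥ := by
    refine le_bot_iff.1 ((commutator_mono (commutator_le.2 fun s hs c hc => ?_) le_rfl).trans
      (le_of_eq (commutator_eq_bot_iff_le_centralizer.2 (le_centralizer_iff.1 hC))))
    exact h s hs c hc
  have h2 : ⁅⁅C, C⁆, S⁆ = ⊥ :=
    commutator_commutator_eq_bot_of_rotate (by rwa [commutator_comm C]) h1
  have hCC : ⁅C, C⁆ = ⊥ := le_bot_iff.1 (hSC ▸ commutator_eq_bot_iff_le_centralizer.1 h2)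
  have hcomm : ∀ a ∈ C, ∀ b ∈ C, a * b = b * a := fun a ha b hb =>
    ((commutator_eq_bot_iff_le_centralizer.1 hCC) ha b hb).symm
  obtain ⟨n, hn'⟩ := exists_eq_residual S
  have := le_of_no_fixedPoints (S := S) (n := n) C hcomm hn
    (hn'.le.trans (le_centralizer_iff.1 hC)) (le_bot_iff.1 (hSC ▸ inf_le_right)) (C ⊓ residual S)
    inf_le_left (le_normalizer_of_conj_mem fun s hs x hx =>
      ⟨conj_mem_of_le_normalizer hn hs hx.1,
        conj_mem_of_le_normalizer (le_normalizer_residual S) hs hx.2⟩)
    fun s hs c hc => ⟨C.mul_mem (conj_mem_of_le_normalizer hn hs hc) (C.inv_mem hc), h s hs c hc⟩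
  exact this.trans inf_le_right

/-- **Schenkman's theorem.** -/
theorem centralizer_residual_le {S : Subgroup G} (hS : S.IsSubnormal)
    (hSC : centralizer (S : Set G) = ⊥) :
    centralizer (residual S : Set G) ≤ residual S := by
  set C := centralizer (residual S : Set G) with hC
  have hCn : S ≤ normalizer (C : Set G) := le_normalizer_of_conj_mem fun s hs c hc r hr => by
    have := hc _ (conj_mem_of_le_normalizer (le_normalizer_residual S) (inv_mem hs) hr)
    calc r * (s * c * s⁻¹) = s * ((s⁻¹ * r * s⁻¹⁻¹) * c) * s⁻¹ := by group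
      _ = s * c * s⁻¹ * r := by rw [this]; group
  have hn_inf : ∀ {A : Subgroup G}, S ≤ normalizer (A : Set G) →
      S ≤ normalizer ((C ⊓ A : Subgroup G) : Set G) := fun hA =>
    le_normalizer_of_conj_mem fun s hs x hx =>
      ⟨conj_mem_of_le_normalizer hCn hs hx.1, conj_mem_of_le_normalizer hA hs hx.2⟩
  -- inside `S`
  obtain ⟨n, hn⟩ := exists_eq_residual S
  have hbase : C ⊓ S ≤ residual S := by
    suffices key : ∀ j k, n ≤ k + j → C ⊓ S.lowerCentralSeries k ≤ residual S from key n 0 (by omega)
    intro j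
    induction j with
    | zero =>
      intro k hk
      exact inf_le_right.trans ((S.lowerCentralSeries_antitone (by omega : n ≤ k)).trans hn.le)
    | succ j ih =>
      intro k hk
      refine le_residual_of_commutator hSC inf_le_left
        (hn_inf (S.self_le_normalizer_lowerCentralSeries k)) fun s hs c hc => ?_
      refine ih (k + 1) (by omega) ⟨?_, ?_⟩
      · exact C.mul_mem (conj_mem_of_le_normalizer hCn hs hc.1) (C.inv_mem hc.1)
      · rw [← commutatorElement_def, ← commutatorElement_inv]
        exact Subgroup.inv_mem _ (commutator_mem_commutator hc.2 hs)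
  -- up a chain
  obtain ⟨m, f, hmono, hnorm, hf0, hfm⟩ := hS.exists_chain
  suffices key : ∀ i, C ⊓ f i ≤ residual S by simpa [hfm] using key m
  intro i
  induction i with
  | zero => rw [hf0]; exact hbase
  | succ i ih =>
    have hSi : ∀ j, S ≤ f j := fun j => hf0 ▸ hmono (Nat.zero_le j)
    refine le_residual_of_commutator hSC inf_le_left
      (hn_inf ((hSi (i + 1)).trans le_normalizer)) fun s hs c hc => ih ⟨?_, ?_⟩
    · exact C.mul_mem (conj_mem_of_le_normalizer hCn hs hc.1) (C.inv_mem hc.1)
    · have e : s * c * s⁻¹ * c⁻¹ = s * (c * s⁻¹ * c⁻¹) := by group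
      rw [e]
      exact (f i).mul_mem (hSi i hs) (conj_mem_of_le_normalizer
        ((normal_subgroupOf_iff_le_normalizer (hmono (Nat.le_succ i))).1 (hnorm i)) hc.2
        ((f i).inv_mem (hSi i hs)))

/-- The generalised Fitting subgroup normalises the residual. -/
theorem fStar_le_normalizer_residual {S : Subgroup G} (hS : S.IsSubnormal) :
    fStar G ≤ normalizer (residual S : Set G) := by
  refine sup_le (iSup₂_le fun p hp => ?_) (iSup₂_le fun K hK => ?_)
  · haveI := Fact.mk hp
    exact pCore_le_normalizer_residual hS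
  · rcases hK.le_or_commute hS with h | h
    · exact h.trans (le_normalizer_residual S)
    · refine le_normalizer_of_conj_mem fun k hk r hr => ?_
      rw [commutator_comm, commutator_eq_bot_iff_le_centralizer] at h
      rw [← h hk r (residual_le S hr), mul_inv_cancel_right]
      exact hr

/-- A subgroup containing its centraliser bounds its normaliser. -/
theorem card_le_mul_factorial {H N : Subgroup G} (hN : N ≤ normalizer (H : Set G))
    (hC : centralizer (H : Set G) ≤ H) :
    Nat.card N ≤ Nat.card H * (Nat.card H).factorial := by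
  let φ : N →* MulAut H := H.normalizerMonoidHom.comp (inclusion hN)
  have hker : Nat.card φ.ker ≤ Nat.card H := by
    refine Nat.card_le_card_of_injective (fun x => (⟨((x : N) : G), hC ?_⟩ : H))
      fun a b h => Subtype.ext (Subtype.ext (congrArg (fun y : H => (y : G)) h))
    have hx : inclusion hN (x : N) ∈ H.normalizerMonoidHom.ker := x.2
    rw [normalizerMonoidHom_ker] at hx
    exact hx
  have hrange : Nat.card φ.range ≤ (Nat.card H).factorial := by
    haveI := Fintype.ofFinite H
    classical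
    refine le_of_le_of_eq (Nat.card_le_card_of_injective (fun σ => (σ : MulAut H).toEquiv)
      fun a b h => Subtype.ext (MulEquiv.toEquiv_injective h)) ?_
    exact Nat.card_perm
  rw [← φ.ker.index_mul_card, index_ker, mul_comm]
  exact Nat.mul_le_mul hker hrange

/-- **Wielandt's bound.** -/
theorem card_le_bound {S : Subgroup G} (hS : S.IsSubnormal)
    (hSC : centralizer (S : Set G) = ⊥) :
    Nat.card G ≤ (Nat.card S * (Nat.card S).factorial) *
      (Nat.card S * (Nat.card S).factorial).factorial := by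
  set m := Nat.card S * (Nat.card S).factorial
  have hF : Nat.card (fStar G) ≤ m := by
    refine (card_le_mul_factorial (fStar_le_normalizer_residual hS)
      (centralizer_residual_le hS hSC)).trans ?_
    have := card_le_of_le (residual_le S)
    exact Nat.mul_le_mul this (Nat.factorial_le this)
  have h := card_le_mul_factorial (H := fStar G) (N := ⊤)
    (normalizer_eq_top_iff.2 inferInstance).ge centralizer_fStar_le
  rw [card_top] at h
  exact h.trans (Nat.mul_le_mul hF (Nat.factorial_le hF))

end FA.AutTower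

end
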