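import Mathlib.GroupTheory.IsSubnormal
import Mathlib.GroupTheory.Nilpotent
import Mathlib.GroupTheory.Sylow

/-!
# Subnormal `p`-subgroups and the nilpotent residual

Subnormal `p`-subgroups lie in the intersection of the Sylow `p`-subgroups and normalise the
nilpotent residual of every subnormal subgroup.
-/

set_option autoImplicit false
set_option linter.style.haveILetI false

noncomputable section

open Subgroup

open scoped Pointwise

namespace FA.AutTower

variable {G : Type*} [Group G]

/-- A subgroup whose conjugates under `K` it contains is normalised by `K`. -/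
theorem le_normalizer_of_conj_mem {Q K : Subgroup G}
    (h : ∀ k ∈ K, ∀ x ∈ Q, k * x * k⁻¹ ∈ Q) : K ≤ normalizer (Q : Set G) := fun k hk => by
  refine mem_normalizer_iff.2 fun x => ⟨h k hk x, fun hx => ?_⟩
  have := h k⁻¹ (inv_mem hk) _ hx
  simpa [mul_assoc] using this

/-- Conjugation by an element of the normaliser. -/
theorem conj_mem_of_le_normalizer {Q K : Subgroup G} (h : K ≤ normalizer (Q : Set G)) {k x : G}
    (hk : k ∈ K) (hx : x ∈ Q) : k * x * k⁻¹ ∈ Q :=
  (mem_normalizer_iff.1 (h hk) x).1 hx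

/-- The intersection of the Sylow `p`-subgroups. -/
def pCore (p : ℕ) (G : Type*) [Group G] : Subgroup G := ⨅ P : Sylow p G, (P : Subgroup G)

theorem isPGroup_pCore (p : ℕ) : IsPGroup p (pCore p G) := by
  obtain ⟨P⟩ := (inferInstance : Nonempty (Sylow p G))
  exact P.isPGroup'.to_le (iInf_le _ P)

instance pCore_normal (p : ℕ) : (pCore p G).Normal := ⟨fun x hx g => by
  refine mem_iInf.2 fun P => ?_
  have := mem_iInf.1 hx (g⁻¹ • P)
  rw [Sylow.coe_subgroup_smul, mem_pointwise_smul_iff_inv_smul_mem] at this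
  simpa using this⟩

variable [Finite G] {p : ℕ} [Fact p.Prime]

theorem le_pCore_of_normal {N : Subgroup G} (hN : N.Normal) (hp : IsPGroup p N) :
    N ≤ pCore p G := by
  refine le_iInf fun P => ?_
  obtain ⟨P₀, hP₀⟩ := hp.exists_le_sylow
  obtain ⟨g, rfl⟩ := MulAction.exists_smul_eq G P₀ P
  intro x hx
  rw [Sylow.coe_subgroup_smul, mem_pointwise_smul_iff_inv_smul_mem]
  exact hP₀ (by simpa using hN.conj_mem x hx g⁻¹)

/-- A `p`-subgroup normal in a subnormal subgroup lies in the `p`-core. -/
theorem le_pCore_of_le_normalizer {K : Subgroup G} (hK : K.IsSubnormal) :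
    ∀ Q ≤ K, IsPGroup p Q → K ≤ normalizer (Q : Set G) → Q ≤ pCore p G := by
  induction hK with
  | top =>
    intro Q _ hQ hn
    exact le_pCore_of_normal (normalizer_eq_top_iff.1 (top_le_iff.1 hn)) hQ
  | step H K hle _ hN ih =>
    intro Q hQH hQ hn
    rw [normal_subgroupOf_iff_le_normalizer hle] at hN
    have key : ∀ Q' ≤ H, IsPGroup p Q' → H ≤ normalizer (Q' : Set G) →
        Q' ≤ (pCore p H).map H.subtype := by
      intro Q' hQ'H hQ' hn'
      rw [← map_subgroupOf_eq_of_le hQ'H]
      refine map_mono (le_pCore_of_normal ?_ (hQ'.of_equiv (subgroupOfEquivOfLe hQ'H).symm))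
      exact (normal_subgroupOf_iff_le_normalizer hQ'H).2 hn'
    refine (key Q hQH hQ hn).trans (ih _ ((map_subtype_le _).trans hle)
      ((isPGroup_pCore p).map H.subtype) (le_normalizer_of_conj_mem fun k hk x hx => ?_))
    set Q₀ := (pCore p H).map H.subtype with hQ₀
    have hQ₀H : Q₀ ≤ H := map_subtype_le _
    have hQ₀n : H ≤ normalizer (Q₀ : Set G) :=
      (normal_subgroupOf_iff_le_normalizer hQ₀H).1 (by
        rw [hQ₀, subgroupOf, comap_map_eq_self_of_injective H.subtype_injective]
        infer_instance)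
    refine key (Q₀.map (MulAut.conj k).toMonoidHom) ?_ (((isPGroup_pCore p).map H.subtype).map _)
      (le_normalizer_of_conj_mem fun a ha y hy => ?_) (mem_map_of_mem _ hx)
    · rintro - ⟨y, hy, rfl⟩
      exact conj_mem_of_le_normalizer hN hk (hQ₀H hy)
    · obtain ⟨z, hz, rfl⟩ := hy
      have ha' : k⁻¹ * a * k ∈ H := by
        simpa using conj_mem_of_le_normalizer hN (inv_mem hk) ha
      refine ⟨_, conj_mem_of_le_normalizer hQ₀n ha' hz, ?_⟩
      show k * (k⁻¹ * a * k * z * (k⁻¹ * a * k)⁻¹) * k⁻¹ = a * (k * z * k⁻¹) * a⁻¹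
      group

/-- **Subnormal `p`-subgroups lie in the `p`-core.** -/
theorem le_pCore {Q : Subgroup G} (hQ : Q.IsSubnormal) (hp : IsPGroup p Q) : Q ≤ pCore p G :=
  le_pCore_of_le_normalizer hQ Q le_rfl hp le_normalizer

omit [Finite G] in
/-- An element whose power prime to its order lies in a subgroup lies in it. -/
theorem mem_of_pow_mem {H : Subgroup G} {x : G} {n : ℕ} (hco : (orderOf x).Coprime n)
    (hx : x ^ n ∈ H) : x ∈ H := by
  obtain ⟨m, hm⟩ := exists_pow_eq_self_of_coprime hco.symm
  rw [← hm]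
  exact pow_mem hx m

omit [Finite G] in
/-- A subnormal subgroup of `p`-power index holds the elements of order prime to `p`. -/
theorem mem_of_index_pow {H : Subgroup G} (hH : H.IsSubnormal) (hi : ∃ a, H.index = p ^ a)
    {x : G} (hx : ¬ p ∣ orderOf x) : x ∈ H := by
  induction hH with
  | top => exact mem_top x
  | step H K hle _ hN ih =>
    obtain ⟨a, ha⟩ := hi
    have hK : ∃ b, K.index = p ^ b := by
      obtain ⟨b, -, hb⟩ := (Nat.dvd_prime_pow (Fact.out : p.Prime)).1
        (ha ▸ index_dvd_of_le hle)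
      exact ⟨b, hb⟩
    obtain ⟨b, -, hb⟩ := (Nat.dvd_prime_pow (Fact.out : p.Prime)).1
      (ha ▸ relIndex_dvd_index_of_le hle : H.relIndex K ∣ p ^ a)
    haveI := hN
    have h1 : (⟨x, ih hK⟩ : K) ^ (H.subgroupOf K).index ∈ H.subgroupOf K := pow_index_mem _ _
    refine mem_of_pow_mem (n := p ^ b) ?_ ?_
    · exact Nat.Coprime.pow_right _ (((Fact.out : p.Prime).coprime_iff_not_dvd.2 hx).symm)
    · rw [← hb]
      simpa [mem_subgroupOf, relIndex] using h1

/-- The nilpotent residual of a subgroup. -/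
def residual (S : Subgroup G) : Subgroup G := ⨅ n, S.lowerCentralSeries n

omit [Finite G] in
theorem residual_le (S : Subgroup G) : residual S ≤ S := iInf_le _ 0

theorem exists_eq_residual (S : Subgroup G) : ∃ n, S.lowerCentralSeries n = residual S := by
  obtain ⟨_, ⟨n, rfl⟩, hn⟩ := Set.Finite.exists_minimal
    (Set.toFinite (Set.range S.lowerCentralSeries)) (Set.range_nonempty _)
  refine ⟨n, le_antisymm (le_iInf fun m => ?_) (iInf_le _ n)⟩
  exact (hn ⟨max n m, rfl⟩ (S.lowerCentralSeries_antitone (le_max_left n m))).trans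
    (S.lowerCentralSeries_antitone (le_max_right n m))

omit [Finite G] in
theorem le_normalizer_residual (S : Subgroup G) : S ≤ normalizer (residual S : Set G) :=
  le_normalizer_of_conj_mem fun _ hk _ hx => mem_iInf.2 fun n =>
    conj_mem_of_le_normalizer (S.self_le_normalizer_lowerCentralSeries n) hk (mem_iInf.1 hx n)

/-- The subgroup generated by the elements of `S` of order prime to `p`. -/
def primeResidual (p : ℕ) (S : Subgroup G) : Subgroup G :=
  closure {s | s ∈ S ∧ ¬ p ∣ orderOf s}

omit [Finite G] [Fact p.Prime] in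
theorem primeResidual_le (S : Subgroup G) : primeResidual p S ≤ S :=
  (closure_le S).2 fun _ h => h.1

/-- The `p`-residual is large: it holds the nilpotent residual. -/
theorem residual_le_primeResidual (S : Subgroup G) : residual S ≤ primeResidual p S := by
  set P := primeResidual p S
  haveI : (P.subgroupOf S).Normal := by
    refine (normal_subgroupOf_iff_le_normalizer (primeResidual_le S)).2
      (le_normalizer_of_conj_mem fun k hk x hx => ?_)
    have hle : P ≤ P.comap (MulAut.conj k).toMonoidHom := by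
      refine (closure_le _).2 fun t ht => subset_closure ⟨?_, ?_⟩
      · exact mul_mem (mul_mem hk ht.1) (inv_mem hk)
      · show ¬ p ∣ orderOf (MulAut.conj k t)
        rw [MulEquiv.orderOf_eq]
        exact ht.2
    exact hle hx
  set f := QuotientGroup.mk' (P.subgroupOf S)
  have hp : IsPGroup p (↥S ⧸ P.subgroupOf S) := fun y => by
    obtain ⟨s, rfl⟩ := QuotientGroup.mk'_surjective (P.subgroupOf S) y
    obtain ⟨a, m, hm, ha⟩ := Nat.exists_eq_pow_mul_and_not_dvd (orderOf_pos (s : G)).ne' p
      (Fact.out : p.Prime).ne_one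
    refine ⟨a, ?_⟩
    rw [← map_pow, QuotientGroup.mk'_apply, QuotientGroup.eq_one_iff, mem_subgroupOf,
      SubgroupClass.coe_pow]
    refine subset_closure ⟨pow_mem s.2 _, ?_⟩
    rw [orderOf_pow, ha, Nat.gcd_eq_right (dvd_mul_right _ _),
      Nat.mul_div_cancel_left _ (pow_pos (Fact.out : p.Prime).pos a)]
    exact hm
  obtain ⟨n, hn⟩ := Subgroup.nilpotent_iff_lowerCentralSeries.1 hp.isNilpotent
  rw [← map_top_of_surjective f (QuotientGroup.mk'_surjective _), ← map_lowerCentralSeries,
    Subgroup.map_eq_bot_iff, QuotientGroup.ker_mk', subgroupOf, ← map_le_iff_le_comap,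
    top_subtype_lowerCentralSeries] at hn
  exact (iInf_le _ n).trans hn

/-- A `p`-element of the `p`-residual lies in the nilpotent residual. -/
theorem mem_residual_of_pow {S : Subgroup G} {z : G} (hz : z ∈ primeResidual p S) {a : ℕ}
    (hza : z ^ p ^ a = 1) : z ∈ residual S := by
  haveI : ((residual S).subgroupOf S).Normal :=
    (normal_subgroupOf_iff_le_normalizer (residual_le S)).2 (le_normalizer_residual S)
  set f := QuotientGroup.mk' ((residual S).subgroupOf S)
  haveI hnil : Group.IsNilpotent (↥S ⧸ (residual S).subgroupOf S) := by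
    obtain ⟨n, hn⟩ := exists_eq_residual S
    refine Subgroup.nilpotent_iff_lowerCentralSeries.2 ⟨n, ?_⟩
    rw [← map_top_of_surjective f (QuotientGroup.mk'_surjective _), ← map_lowerCentralSeries,
      Subgroup.map_eq_bot_iff, QuotientGroup.ker_mk', subgroupOf, ← map_le_iff_le_comap,
      top_subtype_lowerCentralSeries, hn]
  have hzS : z ∈ S := primeResidual_le S hz
  suffices h : f ⟨z, hzS⟩ = 1 from (QuotientGroup.eq_one_iff (⟨z, hzS⟩ : S)).1 h
  obtain ⟨e⟩ := (Group.isNilpotent_of_finite_tfae.out 0 4 rfl rfl).1 hnil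
  refine e.symm.injective ?_
  rw [map_one]
  funext q P
  haveI : Fact (q : ℕ).Prime := ⟨Nat.prime_of_mem_primeFactors q.2⟩
  let π : S →* P :=
    { toFun := fun s => e.symm (f s) q P
      map_one' := by simp only [map_one]; rfl
      map_mul' := fun s t => by simp only [map_mul]; rfl }
  show π ⟨z, hzS⟩ = 1
  by_cases hqp : (q : ℕ) = p
  · have hle : primeResidual p S ≤ π.ker.map S.subtype := by
      refine (closure_le _).2 fun s hs => ?_
      refine ⟨⟨s, hs.1⟩, orderOf_eq_one_iff.1 ?_, rfl⟩
      have h1 : orderOf (π ⟨s, hs.1⟩) ∣ orderOf s := by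
        exact (orderOf_map_dvd π _).trans (dvd_of_eq (Subgroup.orderOf_coe (⟨s, hs.1⟩ : S)).symm)
      obtain ⟨b, hb⟩ := IsPGroup.iff_orderOf.1 P.isPGroup' (π ⟨s, hs.1⟩)
      rcases Nat.eq_zero_or_pos b with rfl | hb0
      · rw [hb, pow_zero]
      · exact absurd ((hqp ▸ hb ▸ dvd_pow_self (q : ℕ) hb0.ne' : p ∣ _).trans h1) hs.2
    obtain ⟨w, hw, hwz⟩ := hle hz
    obtain rfl : w = ⟨z, hzS⟩ := Subtype.ext hwz
    exact hw
  · refine orderOf_eq_one_iff.1 ?_
    obtain ⟨b, hb⟩ := IsPGroup.iff_orderOf.1 P.isPGroup' (π ⟨z, hzS⟩)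
    have h1 : orderOf (π ⟨z, hzS⟩) ∣ p ^ a := (orderOf_map_dvd π _).trans
      (orderOf_dvd_of_pow_eq_one (Subtype.ext (by simpa using hza)))
    rw [hb] at h1 ⊢
    exact Nat.eq_one_of_dvd_coprimes
      (((Nat.coprime_primes Fact.out Fact.out).2 hqp).pow b a) dvd_rfl h1

/-- **The `p`-core normalises the nilpotent residual of a subnormal subgroup.** -/
theorem pCore_le_normalizer_residual {S : Subgroup G} (hS : S.IsSubnormal) :
    pCore p G ≤ normalizer (residual S : Set G) := by
  set N := pCore p G with hN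
  have hin : ∀ y ∈ S ⊔ N, ¬ p ∣ orderOf y → y ∈ S := by
    intro y hy hyp
    have hi : ∃ a, (S.subgroupOf (S ⊔ N)).index = p ^ a := by
      obtain ⟨a, ha⟩ := IsPGroup.iff_card.1 (isPGroup_pCore (G := G) p)
      have h1 : S.relIndex (S ⊔ N) ∣ p ^ a := by
        have e : S.relIndex (S ⊔ N) * Nat.card S = N.relIndex (S ⊔ N) * Nat.card N := by
          rw [← relIndex_bot_left, ← relIndex_bot_left, mul_comm, mul_comm (N.relIndex _),
            relIndex_mul_relIndex _ _ _ bot_le le_sup_left,
            relIndex_mul_relIndex _ _ _ bot_le le_sup_right]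
        rw [relIndex_sup_right] at e
        obtain ⟨c, hc⟩ := relIndex_dvd_card N S
        rw [← ha, ← hN]
        refine ⟨c, Nat.eq_of_mul_eq_mul_left (Nat.card_pos (α := S)) ?_⟩
        calc Nat.card S * Nat.card N = N.relIndex S * Nat.card N * c := by rw [hc]; ring
          _ = S.relIndex (S ⊔ N) * Nat.card S * c := by rw [e]
          _ = Nat.card S * (S.relIndex (S ⊔ N) * c) := by ring
      obtain ⟨b, -, hb⟩ := (Nat.dvd_prime_pow (Fact.out : p.Prime)).1 h1
      exact ⟨b, hb⟩
    have := mem_of_index_pow (hS.subgroupOf (K := S ⊔ N)) hi (x := ⟨y, hy⟩)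
      (by rwa [← Subgroup.orderOf_coe])
    exact this
  refine le_normalizer_of_conj_mem fun x hx r hr => ?_
  have hP : ∀ s ∈ primeResidual p S, x * s * x⁻¹ ∈ primeResidual p S := by
    intro s hs
    have hle : primeResidual p S ≤
        (primeResidual p S).comap (MulAut.conj x).toMonoidHom := by
      refine (closure_le _).2 fun t ht => subset_closure ⟨hin _ ?_ ?_, ?_⟩
      · exact mul_mem (mul_mem (mem_sup_right hx) (mem_sup_left ht.1))
          (inv_mem (mem_sup_right hx))
      · show ¬ p ∣ orderOf (MulAut.conj x t)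
        rw [MulEquiv.orderOf_eq]
        exact ht.2
      · show ¬ p ∣ orderOf (MulAut.conj x t)
        rw [MulEquiv.orderOf_eq]
        exact ht.2
    exact hle hs
  have hrP : r ∈ primeResidual p S := residual_le_primeResidual S hr
  have hzP : x * r * x⁻¹ * r⁻¹ ∈ primeResidual p S := mul_mem (hP r hrP) (inv_mem hrP)
  have hzN : x * r * x⁻¹ * r⁻¹ ∈ N := by
    rw [mul_assoc x r, mul_assoc x]
    exact mul_mem hx ((pCore_normal p).conj_mem _ (inv_mem hx) r)
  obtain ⟨a, ha⟩ := isPGroup_pCore p ⟨_, hzN⟩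
  have hz : x * r * x⁻¹ * r⁻¹ ∈ residual S := mem_residual_of_pow hzP (congrArg Subtype.val ha)
  simpa using mul_mem hz hr

end FA.AutTower

end
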