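import Fermat.Agent.AutTower.Schenkman
import Mathlib.Algebra.Category.Grp.Basic

/-!
# The automorphism tower

A finite group with trivial centre stays subnormal with trivial centraliser in every group of its
automorphism tower, whose orders are therefore bounded.
-/

set_option autoImplicit false
set_option linter.style.haveILetI false

noncomputable section

open Subgroup

universe u

namespace FA.AutTower

section Step

variable {T : Type*} [Group T] {H : Subgroup T}

/-- An automorphism fixing such a subgroup pointwise is trivial. -/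
theorem eq_one_of_fixes (hH : H.IsSubnormal) (hC : centralizer (H : Set T) = ⊥) (σ : MulAut T)
    (hσ : ∀ h ∈ H, σ h = h) : σ = 1 := by
  obtain ⟨n, f, hmono, hnorm, hf0, hfn⟩ := hH.exists_chain
  suffices key : ∀ i, ∀ y ∈ f i, σ y = y from
    MulEquiv.ext fun y => key n y (hfn ▸ mem_top y)
  intro i
  induction i with
  | zero => exact hf0.symm ▸ hσ
  | succ i ih =>
    intro y hy
    have : y⁻¹ * σ y ∈ centralizer (H : Set T) := fun h hh => by
      have hmem : y * h * y⁻¹ ∈ f i := conj_mem_of_le_normalizer
        ((normal_subgroupOf_iff_le_normalizer (hmono (Nat.le_succ i))).1 (hnorm i)) hy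
        (hmono (Nat.zero_le i) (hf0.symm ▸ hh))
      have e := ih _ hmem
      rw [map_mul, map_mul, map_inv, hσ h hh] at e
      calc h * (y⁻¹ * σ y) = y⁻¹ * (y * h * y⁻¹) * σ y := by group
        _ = y⁻¹ * (σ y * h * (σ y)⁻¹) * σ y := by rw [e]
        _ = y⁻¹ * σ y * h := by group
    rw [hC, mem_bot] at this
    exact (inv_mul_eq_one.1 this).symm

/-- The inner automorphisms are faithful. -/
theorem conj_injective (hC : centralizer (H : Set T) = ⊥) :
    Function.Injective (MulAut.conj : T →* MulAut T) := by
  refine (injective_iff_map_eq_one _).2 fun z hz => ?_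
  have : z ∈ centralizer (H : Set T) := fun h _ => by
    have e : z * h * z⁻¹ = h := by simpa using DFunLike.congr_fun hz h
    exact (mul_inv_eq_iff_eq_mul.1 e).symm
  rwa [hC, mem_bot] at this

theorem range_conj_normal : (MulAut.conj : T →* MulAut T).range.Normal :=
  ⟨fun x ⟨g, hg⟩ σ => ⟨σ g, MulEquiv.ext fun y => by simp [← hg]⟩⟩

theorem isSubnormal_map_conj (hH : H.IsSubnormal) :
    (H.map (MulAut.conj : T →* MulAut T)).IsSubnormal := by
  have := (hH.map (MulAut.conj : T →* MulAut T).rangeRestrict_surjective).trans'
    range_conj_normal.isSubnormal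
  rwa [map_map, MonoidHom.subtype_comp_rangeRestrict] at this

theorem centralizer_map_conj (hH : H.IsSubnormal) (hC : centralizer (H : Set T) = ⊥) :
    centralizer ((H.map (MulAut.conj : T →* MulAut T) : Subgroup (MulAut T)) : Set (MulAut T)) =
      ⊥ := by
  refine (eq_bot_iff_forall _).2 fun σ hσ => eq_one_of_fixes hH hC σ fun h hh => ?_
  refine conj_injective hC ?_
  have e := hσ _ (mem_map_of_mem _ hh)
  refine MulEquiv.ext fun y => ?_
  have e' := DFunLike.congr_fun e (σ.symm y)
  simp only [MulAut.mul_apply, MulAut.conj_apply, map_mul, map_inv,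
    MulEquiv.apply_symm_apply] at e'
  simpa using e'.symm

end Step

/-- The automorphism tower `G, Aut G, Aut (Aut G), …`. -/
def tower (G : Type u) [Group G] : ℕ → GrpCat.{u}
  | 0 => GrpCat.of G
  | n + 1 => GrpCat.of (MulAut (tower G n))

/-- The bottom of the tower inside each level. -/
def embed (G : Type u) [Group G] : ∀ n, G →* tower G n
  | 0 => MonoidHom.id G
  | n + 1 => (MulAut.conj : tower G n →* MulAut (tower G n)).comp (embed G n)

variable (G : Type u) [Group G] [Finite G]

theorem finite_tower : ∀ n, Finite (tower G n)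
  | 0 => ‹Finite G›
  | n + 1 => haveI := finite_tower n
    Finite.of_injective (fun σ : MulAut (tower G n) => σ.toEquiv) MulEquiv.toEquiv_injective

variable (hG : center G = ⊥)

include hG

omit [Finite G] in
theorem range_embed : ∀ n, (embed G n).range.IsSubnormal ∧
    centralizer ((embed G n).range : Set (tower G n)) = ⊥
  | 0 => by
    have e : (embed G 0).range = ⊤ := MonoidHom.range_eq_top.2 Function.surjective_id
    rw [e]
    exact ⟨IsSubnormal.top, by rw [coe_top, centralizer_univ]; exact hG⟩
  | n + 1 => by
    obtain ⟨h1, h2⟩ := range_embed n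
    have e : (embed G (n + 1)).range = (embed G n).range.map MulAut.conj :=
      MonoidHom.range_comp _ _
    rw [e]
    exact ⟨isSubnormal_map_conj h1, centralizer_map_conj h1 h2⟩

/-- The orders in the tower are bounded. -/
theorem card_tower_le (n : ℕ) : Nat.card (tower G n) ≤ (Nat.card G * (Nat.card G).factorial) *
      (Nat.card G * (Nat.card G).factorial).factorial := by
  haveI := finite_tower G n
  obtain ⟨h1, h2⟩ := range_embed G hG n
  refine (card_le_bound h1 h2).trans ?_
  have h : Nat.card (embed G n).range ≤ Nat.card G :=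
    Nat.card_le_card_of_surjective _ (embed G n).rangeRestrict_surjective
  have hm := Nat.mul_le_mul h (Nat.factorial_le h)
  exact Nat.mul_le_mul hm (Nat.factorial_le hm)

/-- **Wielandt's automorphism tower theorem.** -/
theorem exists_stable : ∃ N, ∀ n, N ≤ n →
    Function.Bijective (MulAut.conj : tower G n →* MulAut (tower G n)) := by
  haveI := finite_tower G
  have hinj := fun n => conj_injective (range_embed G hG n).2
  have hmono : Monotone fun n => Nat.card (tower G n) := monotone_nat_of_le_succ fun n =>
    Nat.card_le_card_of_injective (β := tower G (n + 1)) _ (hinj n)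
  obtain ⟨_, ⟨N, rfl⟩, hN⟩ := BddAbove.exists_isGreatest_of_nonempty
    (S := Set.range fun n => Nat.card (tower G n))
    ⟨_, by rintro _ ⟨n, rfl⟩; exact card_tower_le G hG n⟩ (Set.range_nonempty _)
  refine ⟨N, fun n hn => (hinj n).bijective_of_nat_card_le ?_⟩
  exact (hN ⟨n + 1, rfl⟩).trans (hmono hn)

end FA.AutTower

end
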